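/-
S58 library, block Tate (helper6), brick T1: **compatible bases of the `p`-power torsion**.

Pure group theory.  Let `A` be an additive commutative group with `#A[p^k] = p^(2k)` for all `k`.
Then there are sequences `P k, Q k ∈ A[p^k]` with `p • P (k+1) = P k`, `p • Q (k+1) = Q k`, such
that `(a, b) ↦ a • P k + b • Q k` is an isomorphism `(ℤ/p^k)² ≃ A[p^k]`.  We package the inverses
as `κ k : A[p^k] ≃+ (Fin 2 → ZMod (p^k))`, compatible with multiplication by `p`.
-/
import Mathlib

set_option autoImplicit false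
set_option linter.unusedSectionVars false
set_option linter.style.haveILetI false

noncomputable section

namespace Fermat.Agent.S58lib.Tate

open Module

section defs

variable (A : Type*) [AddCommGroup A] (p : ℕ)

/-- the `p^k`-torsion of `A` -/
abbrev tors (k : ℕ) : Submodule ℤ A := Submodule.torsionBy ℤ A ((p ^ k : ℕ) : ℤ)

variable {A p}

lemma mem_tors {k : ℕ} {x : A} : x ∈ tors A p k ↔ (p ^ k) • x = 0 := by
  rw [Submodule.mem_torsionBy_iff, Nat.cast_smul_eq_nsmul]

lemma tors_mono {k l : ℕ} (h : k ≤ l) {x : A} (hx : x ∈ tors A p k) : x ∈ tors A p l := by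
  rw [mem_tors] at hx ⊢
  obtain ⟨d, rfl⟩ := Nat.exists_eq_add_of_le h
  rw [pow_add, mul_comm, mul_smul, hx, smul_zero]

lemma smul_mem_tors {k : ℕ} {x : A} (hx : x ∈ tors A p (k + 1)) : p • x ∈ tors A p k := by
  rw [mem_tors] at hx ⊢
  rw [← mul_smul, ← pow_succ]
  exact hx

lemma mem_tors_succ_of_smul {k : ℕ} {x : A} (hx : p • x ∈ tors A p k) : x ∈ tors A p (k + 1) := by
  rw [mem_tors] at hx ⊢
  rw [pow_succ, mul_smul]
  exact hx

end defs

section main

variable {A : Type*} [AddCommGroup A] {p : ℕ} [hp : Fact p.Prime]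

/-- the hypothesis: `#A[p^k] = p^(2k)` -/
def HasTwoDimTorsion (A : Type*) [AddCommGroup A] (p : ℕ) : Prop :=
  ∀ k : ℕ, Nat.card (tors A p k) = p ^ (2 * k)

lemma HasTwoDimTorsion.finite (h : HasTwoDimTorsion A p) (k : ℕ) : Finite (tors A p k) := by
  apply Nat.finite_of_card_ne_zero
  rw [h k]
  exact pow_ne_zero _ hp.out.ne_zero

/-- multiplication by `p` as a map `A[p^(k+1)] → A[p^k]` -/
def mulP (A : Type*) [AddCommGroup A] (p : ℕ) (k : ℕ) : tors A p (k + 1) →+ tors A p k where
  toFun x := ⟨p • (x : A), smul_mem_tors x.2⟩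
  map_zero' := by
    apply Subtype.ext
    simp
  map_add' x y := by
    apply Subtype.ext
    simp [smul_add]

lemma mulP_coe (k : ℕ) (x : tors A p (k + 1)) : ((mulP A p k x : tors A p k) : A) = p • (x : A) :=
  rfl

/-- multiplication by `p` is surjective `A[p^(k+1)] → A[p^k]`. -/
theorem HasTwoDimTorsion.mulP_surjective (h : HasTwoDimTorsion A p) (k : ℕ) :
    Function.Surjective (mulP A p k) := by
  haveI := h.finite (k + 1)
  haveI := h.finite k
  haveI := h.finite 1
  apply AddMonoidHom.surjective_of_card_ker_le_div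
  have hdiv : Nat.card (tors A p (k + 1)) / Nat.card (tors A p k) = p ^ 2 := by
    rw [h (k + 1), h k]
    have : 2 * (k + 1) = 2 * k + 2 := by ring
    rw [this, pow_add]
    exact Nat.mul_div_cancel_left _ (pow_pos hp.out.pos _)
  rw [hdiv]
  have h1 : Nat.card (tors A p 1) = p ^ 2 := by
    rw [h 1]
  rw [← h1]
  -- the kernel embeds into `A[p]`
  let f : (mulP A p k).ker → tors A p 1 := fun x =>
    ⟨((x : tors A p (k + 1)) : A), by
      have hx : mulP A p k (x : tors A p (k + 1)) = 0 := x.2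
      have hx' := congrArg (fun y : tors A p k => (y : A)) hx
      simp only [mulP_coe, ZeroMemClass.coe_zero] at hx'
      rw [mem_tors, pow_one]
      exact hx'⟩
  have hf : Function.Injective f := by
    intro x y hxy
    apply Subtype.ext
    apply Subtype.ext
    exact congrArg (fun z : tors A p 1 => (z : A)) hxy
  exact Nat.card_le_card_of_injective f hf

/-- divisibility: every `x ∈ A[p^k]` is `p • y`. -/
theorem HasTwoDimTorsion.exists_smul_eq (h : HasTwoDimTorsion A p) {k : ℕ} {x : A}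
    (hx : x ∈ tors A p k) : ∃ y : A, p • y = x := by
  obtain ⟨y, hy⟩ := h.mulP_surjective k ⟨x, hx⟩
  exact ⟨(y : A), congrArg (fun z : tors A p k => (z : A)) hy⟩

/-! ### the base of the tower -/

/-- a two-dimensional vector space over `𝔽_p` has two independent vectors. -/
lemma exists_indep_pair (V : Type*) [AddCommGroup V] [Module (ZMod p) V] [Finite V]
    (hcard : Nat.card V = p ^ 2) :
    ∃ P Q : V, ∀ a b : ZMod p, a • P + b • Q = 0 → a = 0 ∧ b = 0 := by
  haveI : Module.Finite (ZMod p) V := Module.Finite.of_finite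
  have hrank : finrank (ZMod p) V = 2 := by
    have h1 := Module.natCard_eq_pow_finrank (K := ZMod p) (V := V)
    rw [hcard, Nat.card_zmod] at h1
    exact (Nat.pow_right_injective hp.out.two_le h1).symm
  obtain ⟨b⟩ : Nonempty (Module.Basis (Fin 2) (ZMod p) V) :=
    ⟨Module.finBasisOfFinrankEq _ _ hrank⟩
  refine ⟨b 0, b 1, fun a c hac => ?_⟩
  have hli := b.linearIndependent
  rw [Fintype.linearIndependent_iff] at hli
  have h1 := hli ![a, c] (by
    rw [Fin.sum_univ_two]
    simpa using hac)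
  have ha := h1 0
  have hc := h1 1
  simp only [Matrix.cons_val_zero, Matrix.cons_val_one] at ha hc
  exact ⟨ha, hc⟩

/-- a basis of `A[p]`: two points killed by `p`, independent modulo `p`. -/
theorem HasTwoDimTorsion.exists_base (h : HasTwoDimTorsion A p) :
    ∃ P Q : A, p • P = 0 ∧ p • Q = 0 ∧
      ∀ a b : ℤ, a • P + b • Q = 0 → (p : ℤ) ∣ a ∧ (p : ℤ) ∣ b := by
  haveI hfin := h.finite 1
  letI inst : Module (ZMod p) (tors A p 1) := AddCommGroup.zmodModule (fun x => by
    apply Subtype.ext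
    have := x.2
    rw [mem_tors, pow_one] at this
    simpa using this)
  have hcard : Nat.card (tors A p 1) = p ^ 2 := by rw [h 1]
  obtain ⟨P, Q, hPQ⟩ := exists_indep_pair (p := p) (tors A p 1) hcard
  have hmem : ∀ x : tors A p 1, p • (x : A) = 0 := by
    intro x
    have := x.2
    rw [mem_tors, pow_one] at this
    exact this
  refine ⟨(P : A), (Q : A), hmem P, hmem Q, fun a c hac => ?_⟩
  have h0 : ((a : ZMod p)) • P + ((c : ZMod p)) • Q = 0 := by
    rw [Int.cast_smul_eq_zsmul, Int.cast_smul_eq_zsmul]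
    apply Subtype.ext
    simpa using hac
  obtain ⟨ha, hc⟩ := hPQ _ _ h0
  exact ⟨(ZMod.intCast_zmod_eq_zero_iff_dvd a p).mp ha,
    (ZMod.intCast_zmod_eq_zero_iff_dvd c p).mp hc⟩

/-! ### the tower -/

open scoped Classical in
/-- a chosen `p`-th part (junk value `0` if there is none) -/
def half (p : ℕ) (x : A) : A := if h : ∃ y : A, p • y = x then h.choose else 0

lemma half_spec {x : A} (h : ∃ y : A, p • y = x) : p • half p x = x := by
  rw [half, dif_pos h]
  exact h.choose_spec

/-- the tower above a point: `towerSeq P₁ n ∈ A[p^(n+1)]` -/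
def towerSeq (p : ℕ) (P₁ : A) : ℕ → A
  | 0 => P₁
  | n + 1 => half p (towerSeq p P₁ n)

lemma towerSeq_mem (h : HasTwoDimTorsion A p) {P₁ : A} (hP : p • P₁ = 0) (n : ℕ) :
    towerSeq p P₁ n ∈ tors A p (n + 1) ∧ (n ≠ 0 → p • towerSeq p P₁ n = towerSeq p P₁ (n - 1)) := by
  induction n with
  | zero =>
    refine ⟨?_, fun h0 => absurd rfl h0⟩
    rw [mem_tors, pow_one]
    exact hP
  | succ n ih =>
    have hs : p • towerSeq p P₁ (n + 1) = towerSeq p P₁ n := by
      show p • half p (towerSeq p P₁ n) = _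
      exact half_spec (h.exists_smul_eq ih.1)
    refine ⟨?_, fun _ => ?_⟩
    · apply mem_tors_succ_of_smul
      rw [hs]
      exact ih.1
    · simpa using hs

lemma towerSeq_succ (h : HasTwoDimTorsion A p) {P₁ : A} (hP : p • P₁ = 0) (n : ℕ) :
    p • towerSeq p P₁ (n + 1) = towerSeq p P₁ n := by
  have := (towerSeq_mem h hP (n + 1)).2 (Nat.succ_ne_zero n)
  simpa using this

lemma pow_smul_towerSeq (h : HasTwoDimTorsion A p) {P₁ : A} (hP : p • P₁ = 0) (n : ℕ) :
    (p ^ n) • towerSeq p P₁ n = P₁ := by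
  induction n with
  | zero => simp [towerSeq]
  | succ n ih =>
    rw [pow_succ, mul_smul, towerSeq_succ h hP n, ih]

/-- independence at all levels -/
lemma towerSeq_indep (h : HasTwoDimTorsion A p) {P₁ Q₁ : A} (hP : p • P₁ = 0) (hQ : p • Q₁ = 0)
    (hind : ∀ a b : ℤ, a • P₁ + b • Q₁ = 0 → (p : ℤ) ∣ a ∧ (p : ℤ) ∣ b) (n : ℕ) :
    ∀ a b : ℤ, a • towerSeq p P₁ n + b • towerSeq p Q₁ n = 0 →
      ((p ^ (n + 1) : ℕ) : ℤ) ∣ a ∧ ((p ^ (n + 1) : ℕ) : ℤ) ∣ b := by
  induction n with
  | zero =>
    intro a b hab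
    simpa using hind a b hab
  | succ n ih =>
    intro a b hab
    -- multiply by `p`
    have h1 : a • towerSeq p P₁ n + b • towerSeq p Q₁ n = 0 := by
      have := congrArg (fun x : A => p • x) hab
      simp only [smul_add, smul_zero] at this
      rw [smul_comm p a, smul_comm p b, towerSeq_succ h hP, towerSeq_succ h hQ] at this
      exact this
    obtain ⟨⟨a', rfl⟩, ⟨b', rfl⟩⟩ := ih a b h1
    have h2 : a' • P₁ + b' • Q₁ = 0 := by
      rw [← pow_smul_towerSeq h hP (n + 1), ← pow_smul_towerSeq h hQ (n + 1)]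
      rw [← Nat.cast_smul_eq_nsmul ℤ (p ^ (n + 1)) (towerSeq p P₁ (n + 1)),
        ← Nat.cast_smul_eq_nsmul ℤ (p ^ (n + 1)) (towerSeq p Q₁ (n + 1)), ← mul_smul, ← mul_smul,
        mul_comm a', mul_comm b']
      exact hab
    obtain ⟨⟨a'', rfl⟩, ⟨b'', rfl⟩⟩ := hind a' b' h2
    refine ⟨⟨a'', ?_⟩, ⟨b'', ?_⟩⟩ <;>
    · push_cast
      ring

end main

/-! ### compatible generators and the comparison isomorphisms -/

section kappa

variable {A : Type*} [AddCommGroup A] {p : ℕ} [hp : Fact p.Prime]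

/-- compatible generators of the `p`-power torsion -/
structure CompatGens (A : Type*) [AddCommGroup A] (p : ℕ) where
  /-- first generator -/
  P : ℕ → A
  /-- second generator -/
  Q : ℕ → A
  P_succ : ∀ k, p • P (k + 1) = P k
  Q_succ : ∀ k, p • Q (k + 1) = Q k
  P_zero : P 0 = 0
  Q_zero : Q 0 = 0
  indep : ∀ k (a b : ℤ), a • P k + b • Q k = 0 →
    ((p ^ k : ℕ) : ℤ) ∣ a ∧ ((p ^ k : ℕ) : ℤ) ∣ b

theorem HasTwoDimTorsion.exists_compatGens (h : HasTwoDimTorsion A p) :
    Nonempty (CompatGens A p) := by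
  obtain ⟨P₁, Q₁, hP, hQ, hind⟩ := h.exists_base
  refine ⟨{ P := fun k => match k with
                | 0 => 0
                | k + 1 => towerSeq p P₁ k
            Q := fun k => match k with
                | 0 => 0
                | k + 1 => towerSeq p Q₁ k
            P_succ := ?_
            Q_succ := ?_
            P_zero := rfl
            Q_zero := rfl
            indep := ?_ }⟩
  · intro k
    cases k with
    | zero => exact hP
    | succ k => exact towerSeq_succ h hP k
  · intro k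
    cases k with
    | zero => exact hQ
    | succ k => exact towerSeq_succ h hQ k
  · intro k a b hab
    cases k with
    | zero => simp
    | succ k => exact towerSeq_indep h hP hQ hind k a b hab

namespace CompatGens

variable (G : CompatGens A p)

lemma pow_smul_P (k : ℕ) : (p ^ k) • G.P k = 0 := by
  induction k with
  | zero => simp [G.P_zero]
  | succ k ih => rw [pow_succ, mul_smul, G.P_succ, ih]

lemma pow_smul_Q (k : ℕ) : (p ^ k) • G.Q k = 0 := by
  induction k with
  | zero => simp [G.Q_zero]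
  | succ k ih => rw [pow_succ, mul_smul, G.Q_succ, ih]

end CompatGens

/-- the homomorphism `ℤ/n → A`, `a ↦ a • x`, for `n • x = 0` -/
def zHom (n : ℕ) (x : A) (hx : n • x = 0) : ZMod n →+ A :=
  ZMod.lift n ⟨zmultiplesHom A x, by
    rw [zmultiplesHom_apply, natCast_zsmul]
    exact hx⟩

lemma zHom_intCast (n : ℕ) (x : A) (hx : n • x = 0) (a : ℤ) :
    zHom n x hx (a : ZMod n) = a • x := by
  rw [zHom, ZMod.lift_coe]
  rfl

lemma zHom_apply (n : ℕ) (x : A) (hx : n • x = 0) (a : ZMod n) :
    zHom n x hx a = (a.cast : ℤ) • x := by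
  conv_lhs => rw [← ZMod.intCast_zmod_cast a]
  exact zHom_intCast n x hx _

lemma smul_zHom (n : ℕ) (x : A) (hx : n • x = 0) (a : ZMod n) : n • zHom n x hx a = 0 := by
  rw [zHom_apply, smul_comm, hx, smul_zero]

namespace CompatGens

variable (G : CompatGens A p)

/-- the parametrisation `(ℤ/p^k)² → A[p^k]` -/
def lin (k : ℕ) : (Fin 2 → ZMod (p ^ k)) →+ tors A p k :=
  AddMonoidHom.codRestrict
    ((zHom (p ^ k) (G.P k) (G.pow_smul_P k)).comp (Pi.evalAddMonoidHom _ 0) +
      (zHom (p ^ k) (G.Q k) (G.pow_smul_Q k)).comp (Pi.evalAddMonoidHom _ 1))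
    (tors A p k) (fun v => by
      rw [mem_tors]
      simp only [AddMonoidHom.add_apply, AddMonoidHom.coe_comp, Function.comp_apply,
        Pi.evalAddMonoidHom_apply, smul_add, smul_zHom, add_zero])

lemma lin_coe (k : ℕ) (v : Fin 2 → ZMod (p ^ k)) :
    ((G.lin k v : tors A p k) : A) =
      ((v 0).cast : ℤ) • G.P k + ((v 1).cast : ℤ) • G.Q k := by
  simp only [lin, AddMonoidHom.codRestrict_apply, AddMonoidHom.add_apply, AddMonoidHom.coe_comp,
    Function.comp_apply, Pi.evalAddMonoidHom_apply, zHom_apply]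

lemma lin_coe_intCast (k : ℕ) (a b : ℤ) :
    ((G.lin k ![(a : ZMod (p ^ k)), (b : ZMod (p ^ k))] : tors A p k) : A) =
      a • G.P k + b • G.Q k := by
  simp only [lin, AddMonoidHom.codRestrict_apply, AddMonoidHom.add_apply, AddMonoidHom.coe_comp,
    Function.comp_apply, Pi.evalAddMonoidHom_apply, Matrix.cons_val_zero, Matrix.cons_val_one,
    zHom_intCast]

lemma lin_injective (k : ℕ) : Function.Injective (G.lin k) := by
  rw [injective_iff_map_eq_zero]
  intro v hv
  have h1 := congrArg (fun x : tors A p k => (x : A)) hv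
  simp only [lin_coe, ZeroMemClass.coe_zero] at h1
  obtain ⟨h0, h1'⟩ := G.indep k _ _ h1
  funext i
  fin_cases i
  · have := (ZMod.intCast_zmod_eq_zero_iff_dvd _ _).mpr h0
    rwa [ZMod.intCast_zmod_cast] at this
  · have := (ZMod.intCast_zmod_eq_zero_iff_dvd _ _).mpr h1'
    rwa [ZMod.intCast_zmod_cast] at this

lemma lin_bijective (h : HasTwoDimTorsion A p) (k : ℕ) : Function.Bijective (G.lin k) := by
  haveI := h.finite k
  haveI : NeZero (p ^ k) := ⟨pow_ne_zero _ hp.out.ne_zero⟩
  apply Function.Injective.bijective_of_nat_card_le (G.lin_injective k)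
  rw [h k, Nat.card_fun, Nat.card_zmod, Nat.card_fin, ← pow_mul, mul_comm]

/-- **the comparison isomorphisms** `κ k : A[p^k] ≃ (ℤ/p^k)²`. -/
def κ (h : HasTwoDimTorsion A p) (k : ℕ) : tors A p k ≃+ (Fin 2 → ZMod (p ^ k)) :=
  (AddEquiv.ofBijective (G.lin k) (G.lin_bijective h k)).symm

lemma κ_symm_apply (h : HasTwoDimTorsion A p) (k : ℕ) (v : Fin 2 → ZMod (p ^ k)) :
    (G.κ h k).symm v = G.lin k v := rfl

lemma κ_lin (h : HasTwoDimTorsion A p) (k : ℕ) (v : Fin 2 → ZMod (p ^ k)) :
    G.κ h k (G.lin k v) = v :=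
  (G.κ h k).apply_symm_apply v

lemma lin_κ (h : HasTwoDimTorsion A p) (k : ℕ) (x : tors A p k) :
    G.lin k (G.κ h k x) = x :=
  (G.κ h k).symm_apply_apply x

/-- compatibility of the parametrisations with multiplication by `p` -/
lemma mulP_lin (k : ℕ) (v : Fin 2 → ZMod (p ^ (k + 1))) :
    mulP A p k (G.lin (k + 1) v) =
      G.lin k (fun i => ZMod.castHom (pow_dvd_pow p (Nat.le_succ k)) (ZMod (p ^ k)) (v i)) := by
  apply Subtype.ext
  rw [mulP_coe, lin_coe, lin_coe, smul_add, smul_comm p, smul_comm p, G.P_succ, G.Q_succ]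
  have key : ∀ (x : A) (hx : (p ^ k) • x = 0) (a : ZMod (p ^ (k + 1))),
      ((a.cast : ℤ)) • x =
        (((ZMod.castHom (pow_dvd_pow p (Nat.le_succ k)) (ZMod (p ^ k)) a).cast : ℤ)) • x := by
    intro x hx a
    rw [← zHom_intCast (p ^ k) x hx, ← zHom_intCast (p ^ k) x hx]
    congr 1
    rw [ZMod.intCast_zmod_cast, ZMod.castHom_apply, ZMod.intCast_cast]
  rw [key (G.P k) (G.pow_smul_P k), key (G.Q k) (G.pow_smul_Q k)]

/-- **compatibility of `κ` with multiplication by `p`** -/
theorem κ_mulP (h : HasTwoDimTorsion A p) (k : ℕ) (x : tors A p (k + 1)) :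
    G.κ h k (mulP A p k x) =
      fun i => ZMod.castHom (pow_dvd_pow p (Nat.le_succ k)) (ZMod (p ^ k)) (G.κ h (k + 1) x i) := by
  conv_lhs => rw [← G.lin_κ h (k + 1) x, G.mulP_lin k, G.κ_lin h k]

end CompatGens

end kappa

end Fermat.Agent.S58lib.Tate
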