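/-
S58 library, block Tate (helper6), brick T2: **the `p`-adic Tate module of an elliptic curve over
`ℚ` as a `GaloisRepAdic`**.

For `E : WeierstrassCurve ℚ` with `E.Δ ≠ 0` and a prime `p`, the groups
`T k = E[p^k](ℚ̄) = Submodule.torsionBy ℤ (E⁄ℚ̄).Point (p^k)` with the Prelude's Galois action
form an abstract `TorsionSystem` (S29lib, block E) of rank `2` (compatible bases from brick T1 and
`#E[n] = n²` from `S41lib.NE`).  Its `J`-adic limit matrices in any `J`-adically complete ring `O`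
with `p ∈ J` give `tateMat : G_ℚ →* M₂(O)` and, for local `O` and `J = 𝔪`, `tateRep : GaloisRepAdic O`.
-/
import Mathlib
import Fermat.Prelude.Def_FLTPrelim_GaloisRep
import Fermat.Prelude.Def_GaloisRep_Adic
import Fermat.Agent.S29lib.S30.AdicLattice
import Fermat.Agent.S29lib.Dvr.Complete
import Fermat.Agent.S41lib.NE.TorsionCard
import Fermat.Agent.S58lib.Tate.Basis

set_option autoImplicit false
set_option linter.unusedSectionVars false
set_option linter.style.haveILetI false

noncomputable section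

namespace Fermat.Agent.S58lib.Tate

open WeierstrassCurve WeierstrassCurve.Affine WeierstrassCurve.Affine.Point
open Fermat.Agent.S29lib.E Fermat.Agent.S29lib.S30 Matrix

/-- `ℚ̄` -/
abbrev Qb := AlgebraicClosure ℚ
/-- `G_ℚ` -/
abbrev GQ := (AlgebraicClosure ℚ ≃ₐ[ℚ] AlgebraicClosure ℚ)

variable (E : WeierstrassCurve ℚ)

/-- the group `E(ℚ̄)` -/
abbrev Pts : Type := (E⁄Qb).Point

/-! ### the torsion count -/

lemma baseChange_Δ_ne_zero (hΔ : E.Δ ≠ 0) : (E⁄Qb).Δ ≠ 0 := by
  show (E.map (algebraMap ℚ Qb)).Δ ≠ 0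
  rw [WeierstrassCurve.map_Δ]
  exact (map_ne_zero_iff _ (algebraMap ℚ Qb).injective).mpr hΔ

theorem hasTwoDimTorsion (hΔ : E.Δ ≠ 0) (p : ℕ) [hp : Fact p.Prime] :
    HasTwoDimTorsion (Pts E) p := by
  intro k
  rcases Nat.eq_zero_or_pos k with rfl | hk
  · -- `A[1] = 0`
    have : ∀ x : tors (Pts E) p 0, x = 0 := by
      intro x
      apply Subtype.ext
      have := x.2
      rw [mem_tors, pow_zero, one_smul] at this
      exact this
    haveI : Subsingleton (tors (Pts E) p 0) := ⟨fun x y => by rw [this x, this y]⟩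
    simp
  · have h2 : 2 ≤ p ^ k := by
      calc 2 ≤ p := hp.out.two_le
        _ = p ^ 1 := (pow_one p).symm
        _ ≤ p ^ k := Nat.pow_le_pow_right hp.out.pos hk
    have := Fermat.Agent.S41lib.NE.card_torsionBy_eq_sq (E⁄Qb) (baseChange_Δ_ne_zero E hΔ) (p ^ k) h2
    rw [this, ← pow_mul, mul_comm]

/-! ### fields of definition -/

/-- the `x`-coordinate (junk `0` at infinity) -/
def xCo : Pts E → Qb
  | .zero => 0
  | .some x _ _ => x

/-- the `y`-coordinate (junk `0` at infinity) -/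
def yCo : Pts E → Qb
  | .zero => 0
  | .some _ y _ => y

lemma smul_eq_self_of_coords (σ : GQ) (P : Pts E) (hx : σ (xCo E P) = xCo E P)
    (hy : σ (yCo E P) = yCo E P) : σ • P = P := by
  rcases P with _ | ⟨x, y, h⟩
  · rfl
  · rw [algEquiv_smul_def, Point.map_some]
    have hx' : σ x = x := hx
    have hy' : σ y = y := hy
    simp only [Point.some.injEq]
    exact ⟨hx', hy'⟩

/-- a finite set of points is defined over a finite extension of `ℚ`. -/
theorem exists_finite_field_of_finite (S : Set (Pts E)) (hS : S.Finite) :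
    ∃ L : IntermediateField ℚ Qb, FiniteDimensional ℚ L ∧
      ∀ σ : GQ, (∀ x ∈ L, σ x = x) → ∀ P ∈ S, σ • P = P := by
  set C : Set Qb := (xCo E '' S) ∪ (yCo E '' S) with hC
  haveI : Finite C := ((hS.image _).union (hS.image _)).to_subtype
  have hQ : Algebra.IsAlgebraic ℚ Qb := AlgebraicClosure.isAlgebraic ℚ
  refine ⟨IntermediateField.adjoin ℚ C,
    IntermediateField.finiteDimensional_adjoin (fun x _ => (hQ.isAlgebraic x).isIntegral),
    fun σ hσ P hP => ?_⟩
  apply smul_eq_self_of_coords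
  · exact hσ _ (IntermediateField.subset_adjoin ℚ C (Or.inl ⟨P, hP, rfl⟩))
  · exact hσ _ (IntermediateField.subset_adjoin ℚ C (Or.inr ⟨P, hP, rfl⟩))

/-! ### the torsion system -/

variable (p : ℕ) [hp : Fact p.Prime]

/-- the Galois action on `E[p^k]` as an additive endomorphism -/
def actHom (k : ℕ) (σ : GQ) : tors (Pts E) p k →+ tors (Pts E) p k :=
  DistribSMul.toAddMonoidHom (tors (Pts E) p k) σ

lemma actHom_coe (k : ℕ) (σ : GQ) (x : tors (Pts E) p k) :
    ((actHom E p k σ x : tors (Pts E) p k) : Pts E) = σ • (x : Pts E) := rfl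

/-- a choice of compatible generators -/
def gens (hΔ : E.Δ ≠ 0) : CompatGens (Pts E) p :=
  Classical.choice (hasTwoDimTorsion E hΔ p).exists_compatGens

/-- **the torsion system of `E`** -/
def tateSystem (hΔ : E.Δ ≠ 0) : TorsionSystem GQ Empty p 2 where
  T k := tors (Pts E) p k
  κ k := (gens E p hΔ).κ (hasTwoDimTorsion E hΔ p) k
  act k σ := actHom E p k σ
  act_one k x := one_smul GQ x
  act_mul k σ τ x := mul_smul σ τ x
  red k := mulP (Pts E) p k
  red_act k σ x := by
    apply Subtype.ext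
    rw [mulP_coe, actHom_coe, actHom_coe, mulP_coe]
    exact ((DistribSMul.toAddMonoidHom (Pts E) σ).map_nsmul _ _).symm
  κ_red k x := (gens E p hΔ).κ_mulP (hasTwoDimTorsion E hΔ p) k x
  t i := i.elim
  tj k i := i.elim
  κ_tj k i := i.elim
  tj_act k i := i.elim

lemma tateSystem_T (hΔ : E.Δ ≠ 0) (k : ℕ) : (tateSystem E p hΔ).T k = tors (Pts E) p k := rfl

lemma tateSystem_act (hΔ : E.Δ ≠ 0) (k : ℕ) (σ : GQ) (x : tors (Pts E) p k) :
    (tateSystem E p hΔ).act k σ x = actHom E p k σ x := rfl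

/-! ### the limit matrices -/

section limit

variable {O : Type} [CommRing O] (J : Ideal O) [IsAdicComplete J O] (hpJ : (p : O) ∈ J)

/-- **the Tate-module matrices** `G_ℚ →* M₂(O)`. -/
def tateMat (hΔ : E.Δ ≠ 0) : GQ →* Matrix (Fin 2) (Fin 2) O where
  toFun σ := galMatO (tateSystem E p hΔ) J hpJ σ
  map_one' := galMatO_one _ J hpJ
  map_mul' σ τ := galMatO_mul _ J hpJ σ τ

lemma tateMat_apply (hΔ : E.Δ ≠ 0) (σ : GQ) :
    tateMat E p J hpJ hΔ σ = galMatO (tateSystem E p hΔ) J hpJ σ := rfl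

/-- the defining property: `tateMat σ` is the limit of the level matrices. -/
theorem isLim_tateMat (hΔ : E.Δ ≠ 0) (σ : GQ) :
    IsLim J hpJ (tateMat E p J hpJ hΔ σ) (fun k => (tateSystem E p hΔ).galMat k σ) :=
  isLim_galMatO _ J hpJ σ

/-- if `σ` fixes `E[p^k]` pointwise then `tateMat σ ≡ 1` modulo `J^k`. -/
theorem tateMat_sub_one_mem (hΔ : E.Δ ≠ 0) (k : ℕ) (σ : GQ)
    (h : ∀ P : Pts E, P ∈ tors (Pts E) p k → σ • P = P) (i j : Fin 2) :
    (tateMat E p J hpJ hΔ σ - 1) i j ∈ J ^ k := by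
  apply galMatO_sub_one_mem (tateSystem E p hΔ) J hpJ k σ
  intro x
  apply Subtype.ext
  exact h _ x.2

/-- if `σ` fixes all `p`-power torsion then `tateMat σ = 1`. -/
theorem tateMat_eq_one_of_fix (hΔ : E.Δ ≠ 0) (σ : GQ)
    (h : ∀ k, ∀ P : Pts E, P ∈ tors (Pts E) p k → σ • P = P) :
    tateMat E p J hpJ hΔ σ = 1 := by
  apply galMatO_eq_one_of_fix (tateSystem E p hΔ) J hpJ σ
  intro k x
  apply Subtype.ext
  exact h k _ x.2

end limit

/-! ### the representation -/

section rep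

variable {O : Type} [CommRing O] [IsLocalRing O]
  [IsAdicComplete (IsLocalRing.maximalIdeal O) O] (hpO : (p : O) ∈ IsLocalRing.maximalIdeal O)

/-- `E[p^k]` is finite. -/
lemma finite_tors (hΔ : E.Δ ≠ 0) (k : ℕ) : (tors (Pts E) p k : Set (Pts E)).Finite := by
  haveI := (hasTwoDimTorsion E hΔ p).finite k
  exact Set.toFinite _

/-- **the `p`-adic Tate module of `E` as a `GaloisRepAdic O`** (on `O²`). -/
def tateRep (hΔ : E.Δ ≠ 0) : GaloisRepAdic O where
  V := Fin 2 → O
  finrank_eq := Module.finrank_fin_fun O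
  ρ := ((Matrix.toLinAlgEquiv' : Matrix (Fin 2) (Fin 2) O ≃ₐ[O] _) :
    Matrix (Fin 2) (Fin 2) O →* Module.End O (Fin 2 → O)).comp
      (tateMat E p (IsLocalRing.maximalIdeal O) hpO hΔ)
  isAdicContinuous := by
    intro n
    obtain ⟨L, hL, h⟩ := exists_finite_field_of_finite E _ (finite_tors E p hΔ n)
    refine ⟨L, hL, fun σ hσ v => ?_⟩
    have hE := tateMat_sub_one_mem E p (IsLocalRing.maximalIdeal O) hpO hΔ n σ
      (fun P hP => h σ hσ P hP)
    refine Fermat.Agent.S29lib.Dvr.mem_smul_top_of_repr_mem (Pi.basisFun O (Fin 2)) _ fun i => ?_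
    rw [Pi.basisFun_repr]
    set M := tateMat E p (IsLocalRing.maximalIdeal O) hpO hΔ σ with hM
    show (Matrix.toLin' M v - v) i ∈ IsLocalRing.maximalIdeal O ^ n
    have e : Matrix.toLin' M v - v = Matrix.toLin' (M - 1) v := by
      rw [map_sub, LinearMap.sub_apply, Matrix.toLin'_one, LinearMap.id_apply]
    rw [e, Matrix.toLin'_apply, Matrix.mulVec, dotProduct]
    exact Ideal.sum_mem _ fun j _ => Ideal.mul_mem_right _ _ (hE i j)

lemma tateRep_ρ (hΔ : E.Δ ≠ 0) (σ : GQ) :
    (tateRep E p hpO hΔ).ρ σ =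
      Matrix.toLin' (tateMat E p (IsLocalRing.maximalIdeal O) hpO hΔ σ) := rfl

/-- the characteristic polynomial of `ρ(σ)` is that of the matrix. -/
theorem tateRep_charpoly (hΔ : E.Δ ≠ 0) (σ : GQ) :
    LinearMap.charpoly ((tateRep E p hpO hΔ).ρ σ) =
      (tateMat E p (IsLocalRing.maximalIdeal O) hpO hΔ σ).charpoly :=
  Matrix.charpoly_toLin' _

end rep

end Fermat.Agent.S58lib.Tate
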