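/-
S58 library, block Tate (helper6), brick T3: **characteristic polynomials on the Tate module from
the action on the finite levels**.

All hypotheses are statements about the action of ONE `σ ∈ G_ℚ` on the finite groups
`E[p^k](ℚ̄)`:
* `trace_det_of_relation`: if `σ² - aσ + ℓ = 0` on every `E[p^k]` and `σ` never acts on `E[p^k]` as
  a "small" integer scalar, then `tr = a`, `det = ℓ` on the Tate module;
* `trace_eq_one_add_det_of_fixed`: if `σ` fixes a point of exact order `p^k` for every `k`, then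
  `tr = 1 + det`;
* `tateMat σ = 1` if `σ` fixes all `p`-power torsion (in `Rep.lean`).
First over `ℤ_[p]` (`tateMatZp`), then over any complete local `O ∋ p` through
`S29lib.S30.padicToRing`.
-/
import Mathlib
import Fermat.Agent.S29lib.S30.PadicToRing
import Fermat.Agent.S29lib.S30.AdicXDef
import Fermat.Agent.S58lib.Tate.Rep

set_option autoImplicit false
set_option linter.unusedSectionVars false
set_option linter.style.haveILetI false

noncomputable section

namespace Fermat.Agent.S58lib.Tate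

open WeierstrassCurve WeierstrassCurve.Affine WeierstrassCurve.Affine.Point
open Fermat.Agent.S29lib.E Fermat.Agent.S29lib.S30 Matrix Polynomial

variable (E : WeierstrassCurve ℚ) (p : ℕ) [hp : Fact p.Prime] (hΔ : E.Δ ≠ 0)

/-! ### the matrices over `ℤ_[p]` -/

lemma natCast_mem_maximalIdeal_padicInt : (p : ℤ_[p]) ∈ IsLocalRing.maximalIdeal ℤ_[p] := by
  rw [PadicInt.maximalIdeal_eq_span_p]
  exact Ideal.subset_span rfl

/-- **the Tate-module matrices over `ℤ_[p]`** -/
def tateMatZp : GQ →* Matrix (Fin 2) (Fin 2) ℤ_[p] :=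
  tateMat E p (IsLocalRing.maximalIdeal ℤ_[p]) (natCast_mem_maximalIdeal_padicInt p) hΔ

/-- the level-`k` matrices of the action in the chosen compatible bases -/
def levelMat (k : ℕ) (σ : GQ) : Matrix (Fin 2) (Fin 2) (ZMod (p ^ k)) :=
  (tateSystem E p hΔ).galMat k σ

/-- the chosen identification `E[p^k] ≃ (ℤ/p^k)²` -/
def levelEquiv (k : ℕ) : tors (Pts E) p k ≃+ (Fin 2 → ZMod (p ^ k)) :=
  (tateSystem E p hΔ).κ k

/-- the defining property of `levelMat`. -/
theorem levelMat_mulVec (k : ℕ) (σ : GQ) (x : tors (Pts E) p k) :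
    (levelMat E p hΔ k σ).mulVec (levelEquiv E p hΔ k x) =
      levelEquiv E p hΔ k (actHom E p k σ x) :=
  (tateSystem E p hΔ).galMat_mulVec_κ k σ x

lemma psi_apply_eq_mk {O : Type*} [CommRing O] (J : Ideal O) {p : ℕ} (hpJ : (p : O) ∈ J) (k : ℕ)
    (z : ZMod (p ^ k)) :
    psi J hpJ k z = Ideal.Quotient.mk (J ^ k) ((z.cast : ℤ) : O) := by
  conv_lhs => rw [← ZMod.intCast_zmod_cast z]
  rw [map_intCast, map_intCast]

/-- **`tateMatZp σ` reduces to the level matrices.** -/
theorem tateMatZp_map_toZModPow (k : ℕ) (σ : GQ) :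
    (tateMatZp E p hΔ σ).map (PadicInt.toZModPow k) = levelMat E p hΔ k σ := by
  have h := isLim_tateMat E p (IsLocalRing.maximalIdeal ℤ_[p])
    (natCast_mem_maximalIdeal_padicInt p) hΔ σ k
  ext i j
  have hij := congrFun (congrFun h i) j
  simp only [Matrix.map_apply] at hij ⊢
  have hpow : IsLocalRing.maximalIdeal ℤ_[p] ^ k = RingHom.ker (PadicInt.toZModPow (p := p) k) := by
    rw [PadicInt.maximalIdeal_eq_span_p, Ideal.span_singleton_pow, PadicInt.ker_toZModPow]
  rw [psi_apply_eq_mk, Ideal.Quotient.eq, hpow, RingHom.mem_ker, map_sub, map_intCast,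
    sub_eq_zero] at hij
  rw [show tateMatZp E p hΔ σ = tateMat E p (IsLocalRing.maximalIdeal ℤ_[p])
    (natCast_mem_maximalIdeal_padicInt p) hΔ σ from rfl, hij, ZMod.intCast_zmod_cast]
  rfl

/-- two matrices over `ℤ_[p]` with the same reductions are equal -/
lemma matrix_ext_toZModPow {M M' : Matrix (Fin 2) (Fin 2) ℤ_[p]}
    (h : ∀ k, M.map (PadicInt.toZModPow k) = M'.map (PadicInt.toZModPow k)) : M = M' := by
  ext i j
  apply PadicInt.ext_of_toZModPow.mp
  intro k
  have := congrFun (congrFun (h k) i) j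
  simpa using this

/-! ### general coefficients -/

section general

variable {O : Type} [CommRing O] (J : Ideal O) [IsAdicComplete J O] (hpJ : (p : O) ∈ J)

/-- **base change**: the matrices over `O` are the images of the matrices over `ℤ_[p]`. -/
theorem tateMat_eq_map (σ : GQ) :
    tateMat E p J hpJ hΔ σ = (tateMatZp E p hΔ σ).map (padicToRing p J hpJ) := by
  symm
  apply IsLim.unique J hpJ (M' := tateMat E p J hpJ hΔ σ) ?_ (isLim_tateMat E p J hpJ hΔ σ)
  intro k
  ext i j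
  simp only [Matrix.map_apply]
  rw [mk_padicToRing]
  have h1 := congrFun (congrFun (tateMatZp_map_toZModPow E p hΔ k σ) i) j
  simp only [Matrix.map_apply] at h1
  rw [h1]
  have : (zmodToQuot (J ^ k) (p ^ k) (pow_mem_pow_of_mem p J k hpJ)) = psi J hpJ k :=
    RingHom.ext_zmod _ _
  rw [this]
  rfl

theorem tateMat_trace (σ : GQ) :
    (tateMat E p J hpJ hΔ σ).trace = padicToRing p J hpJ (tateMatZp E p hΔ σ).trace := by
  rw [tateMat_eq_map, Matrix.trace_fin_two, Matrix.trace_fin_two]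
  simp [Matrix.map_apply]

theorem tateMat_det (σ : GQ) :
    (tateMat E p J hpJ hΔ σ).det = padicToRing p J hpJ (tateMatZp E p hΔ σ).det := by
  rw [tateMat_eq_map, Matrix.det_fin_two, Matrix.det_fin_two]
  simp [Matrix.map_apply]

theorem tateMat_charpoly (σ : GQ) :
    (tateMat E p J hpJ hΔ σ).charpoly =
      (tateMatZp E p hΔ σ).charpoly.map (padicToRing p J hpJ) := by
  rw [tateMat_eq_map, Matrix.charpoly_map]

end general

/-! ### the action of `σ` on the levels, in terms of the level matrices -/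

/-- `σ • P` for `P ∈ E[p^k]` -/
lemma actHom_eq_iff (k : ℕ) (σ : GQ) (x y : tors (Pts E) p k) :
    actHom E p k σ x = y ↔ σ • (x : Pts E) = (y : Pts E) := by
  constructor
  · intro h
    rw [← h]
    rfl
  · intro h
    apply Subtype.ext
    exact h

lemma levelEquiv_zsmul (k : ℕ) (a : ℤ) (x : tors (Pts E) p k) :
    levelEquiv E p hΔ k (a • x) = (a : ZMod (p ^ k)) • levelEquiv E p hΔ k x := by
  rw [map_zsmul, Int.cast_smul_eq_zsmul]

/-- the quadratic relation on the level matrices -/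
theorem levelMat_relation (σ : GQ) (a l : ℤ) (k : ℕ)
    (hrel : ∀ P : Pts E, P ∈ tors (Pts E) p k → σ • σ • P - a • σ • P + l • P = 0) :
    levelMat E p hΔ k σ * levelMat E p hΔ k σ - (a : ZMod (p ^ k)) • levelMat E p hΔ k σ
      + (l : ZMod (p ^ k)) • (1 : Matrix (Fin 2) (Fin 2) (ZMod (p ^ k))) = 0 := by
  apply (tateSystem E p hΔ).mat_ext_κ
  intro (x : tors (Pts E) p k)
  change (_ : Matrix (Fin 2) (Fin 2) (ZMod (p ^ k))).mulVec (levelEquiv E p hΔ k x) =
    (0 : Matrix (Fin 2) (Fin 2) (ZMod (p ^ k))).mulVec (levelEquiv E p hΔ k x)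
  rw [Matrix.add_mulVec, Matrix.sub_mulVec, ← Matrix.mulVec_mulVec, Matrix.smul_mulVec,
    Matrix.smul_mulVec, Matrix.one_mulVec, levelMat_mulVec, levelMat_mulVec,
    ← levelEquiv_zsmul, ← levelEquiv_zsmul, ← map_sub, ← map_add, Matrix.zero_mulVec]
  convert _root_.map_zero (levelEquiv E p hΔ k)
  apply Subtype.ext
  have := hrel (x : Pts E) x.2
  simpa [actHom_coe] using this

/-- **the quadratic relation on the Tate module.** -/
theorem tateMatZp_relation (σ : GQ) (a l : ℤ)
    (hrel : ∀ k, ∀ P : Pts E, P ∈ tors (Pts E) p k → σ • σ • P - a • σ • P + l • P = 0) :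
    tateMatZp E p hΔ σ * tateMatZp E p hΔ σ - (a : ℤ_[p]) • tateMatZp E p hΔ σ
      + (l : ℤ_[p]) • (1 : Matrix (Fin 2) (Fin 2) ℤ_[p]) = 0 := by
  apply matrix_ext_toZModPow
  intro k
  have h1 := levelMat_relation E p hΔ σ a l k (hrel k)
  rw [← tateMatZp_map_toZModPow] at h1
  rw [Matrix.map_zero _ (_root_.map_zero _), ← h1]
  ext i j
  simp [Matrix.mul_apply, Matrix.one_apply, apply_ite (PadicInt.toZModPow k)]

/-- if `tateMatZp σ` is the scalar `c`, then `σ` acts on `E[p^k]` as any integer lift of `c`. -/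
theorem smul_eq_zsmul_of_scalar (σ : GQ) (c : ℤ_[p])
    (hM : tateMatZp E p hΔ σ = c • (1 : Matrix (Fin 2) (Fin 2) ℤ_[p])) (k : ℕ) (n : ℤ)
    (hn : (n : ZMod (p ^ k)) = PadicInt.toZModPow k c) :
    ∀ P : Pts E, P ∈ tors (Pts E) p k → σ • P = n • P := by
  intro P hP
  set x : tors (Pts E) p k := ⟨P, hP⟩ with hx
  have h1 := levelMat_mulVec E p hΔ k σ x
  rw [← tateMatZp_map_toZModPow, hM] at h1
  have h2 : ((c • (1 : Matrix (Fin 2) (Fin 2) ℤ_[p])).map (PadicInt.toZModPow k)) =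
      (n : ZMod (p ^ k)) • (1 : Matrix (Fin 2) (Fin 2) (ZMod (p ^ k))) := by
    ext i j
    simp [Matrix.one_apply, apply_ite (PadicInt.toZModPow k), hn]
  rw [h2, Matrix.smul_mulVec, Matrix.one_mulVec, ← levelEquiv_zsmul] at h1
  have h3 := (levelEquiv E p hΔ k).injective h1
  have h4 := congrArg (fun y : tors (Pts E) p k => (y : Pts E)) h3
  simp only [actHom_coe] at h4
  rw [← h4]
  rfl

/-- **trace and determinant from the quadratic relation.**  `hbound` says that `σ` does not act on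
`E[p^k]` as a small integer scalar; it is implied by
"`φ - c ≠ 0` kills a subgroup `X` of `Ẽ(𝔽̄_ℓ)` ⇒ `#X ≤ deg (φ - c) = c² - ac + ℓ`". -/
theorem trace_det_of_relation (σ : GQ) (a l : ℤ)
    (hrel : ∀ k, ∀ P : Pts E, P ∈ tors (Pts E) p k → σ • σ • P - a • σ • P + l • P = 0)
    (hbound : ∀ (k : ℕ) (c : ℤ), (∀ P : Pts E, P ∈ tors (Pts E) p k → σ • P = c • P) →
      ((p ^ k : ℕ) : ℤ) ^ 2 ≤ 2 * |c ^ 2 - a * c + l| + 1) :
    (tateMatZp E p hΔ σ).trace = (a : ℤ_[p]) ∧ (tateMatZp E p hΔ σ).det = (l : ℤ_[p]) := by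
  rcases matrix_dichotomy (tateMatZp E p hΔ σ) (a : ℤ_[p]) (l : ℤ_[p])
    (tateMatZp_relation E p hΔ σ a l hrel) with h | ⟨c, hc, -⟩
  · exact h
  · exfalso
    -- choose `k` large
    set k : ℕ := (2 * |a| + 4 * |l| + 3).toNat with hk
    haveI : NeZero (p ^ k) := ⟨pow_ne_zero _ hp.out.ne_zero⟩
    set z : ZMod (p ^ k) := PadicInt.toZModPow k c with hz
    set n : ℤ := z.valMinAbs with hn
    have hnz : (n : ZMod (p ^ k)) = z := ZMod.coe_valMinAbs z
    have hact := smul_eq_zsmul_of_scalar E p hΔ σ c hc k n hnz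
    have hb := hbound k n hact
    have hsmall : 2 * |n| ≤ ((p ^ k : ℕ) : ℤ) := by
      have h1 := ZMod.natAbs_valMinAbs_le z
      have h2 : (n.natAbs : ℤ) = |n| := Int.natCast_natAbs n
      have h3 : 2 * n.natAbs ≤ p ^ k := by
        have := Nat.mul_le_mul_left 2 h1
        exact this.trans (Nat.mul_div_le _ _)
      rw [← h2]
      exact_mod_cast h3
    have hbig : 2 * |a| + 4 * |l| + 3 ≤ ((p ^ k : ℕ) : ℤ) := by
      have h1 : k < p ^ k := Nat.lt_pow_self hp.out.one_lt
      have h2 : (2 * |a| + 4 * |l| + 3) = (k : ℤ) := by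
        rw [hk, Int.toNat_of_nonneg (by positivity)]
      rw [h2]
      exact_mod_cast h1.le
    set B : ℤ := ((p ^ k : ℕ) : ℤ) with hB
    have hN : |n ^ 2 - a * n + l| ≤ n ^ 2 + |a| * |n| + |l| := by
      calc |n ^ 2 - a * n + l| ≤ |n ^ 2 - a * n| + |l| := abs_add_le _ _
        _ ≤ |n ^ 2| + |a * n| + |l| := by
            have := abs_sub (n ^ 2) (a * n)
            linarith
        _ = n ^ 2 + |a| * |n| + |l| := by rw [abs_mul, abs_of_nonneg (sq_nonneg n)]
    have hn2 : n ^ 2 = |n| ^ 2 := (sq_abs n).symm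
    have ha0 : 0 ≤ |a| := abs_nonneg a
    have hl0 : 0 ≤ |l| := abs_nonneg l
    have hn0 : 0 ≤ |n| := abs_nonneg n
    nlinarith [mul_nonneg ha0 hn0, mul_nonneg ha0 hl0]

/-- **the characteristic polynomial on the Tate module (over `ℤ_[p]`).** -/
theorem tateMatZp_charpoly_of_relation (σ : GQ) (a l : ℤ)
    (hrel : ∀ k, ∀ P : Pts E, P ∈ tors (Pts E) p k → σ • σ • P - a • σ • P + l • P = 0)
    (hbound : ∀ (k : ℕ) (c : ℤ), (∀ P : Pts E, P ∈ tors (Pts E) p k → σ • P = c • P) →
      ((p ^ k : ℕ) : ℤ) ^ 2 ≤ 2 * |c ^ 2 - a * c + l| + 1) :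
    (tateMatZp E p hΔ σ).charpoly = X ^ 2 - C (a : ℤ_[p]) * X + C (l : ℤ_[p]) := by
  obtain ⟨ht, hd⟩ := trace_det_of_relation E p hΔ σ a l hrel hbound
  rw [Matrix.charpoly_fin_two, ht, hd]

end Fermat.Agent.S58lib.Tate
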