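/-
S58 library, block Tate (helper6), brick T3 (continued): **fixed points and the packaged
statements for `tateRep`**.

* `trace_eq_one_add_det_of_fixed`: if `σ` fixes a point of exact order `p^k` for every `k`, then
  `tr = 1 + det` on the Tate module (so `charpoly = (X - 1)²` as soon as `det = 1`);
* the statements of `Charpoly.lean` for `tateMat` over a general complete local ring `O` and for
  the `GaloisRepAdic` `tateRep`.
-/
import Mathlib
import Fermat.Agent.S58lib.Tate.Charpoly

set_option autoImplicit false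
set_option linter.unusedSectionVars false
set_option linter.style.haveILetI false

noncomputable section

namespace Fermat.Agent.S58lib.Tate

open WeierstrassCurve WeierstrassCurve.Affine WeierstrassCurve.Affine.Point
open Fermat.Agent.S29lib.E Fermat.Agent.S29lib.S30 Matrix Polynomial

variable (E : WeierstrassCurve ℚ) (p : ℕ) [hp : Fact p.Prime] (hΔ : E.Δ ≠ 0)

/-! ### fixed points -/

/-- a fixed point of exact order `p^k` forces `det (levelMat - 1) = 0`. -/
theorem det_levelMat_sub_one (k : ℕ) (σ : GQ) (P : Pts E) (hord : addOrderOf P = p ^ k)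
    (hfix : σ • P = P) : (levelMat E p hΔ k σ - 1).det = 0 := by
  haveI : NeZero (p ^ k) := ⟨pow_ne_zero _ hp.out.ne_zero⟩
  have hP : P ∈ tors (Pts E) p k := by
    rw [mem_tors, ← hord]
    exact addOrderOf_nsmul_eq_zero P
  set x : tors (Pts E) p k := ⟨P, hP⟩ with hx
  set v := levelEquiv E p hΔ k x with hv
  set G := levelMat E p hΔ k σ with hG
  have h1 : (G - 1).mulVec v = 0 := by
    rw [Matrix.sub_mulVec, Matrix.one_mulVec, hG, hv, levelMat_mulVec]
    have : actHom E p k σ x = x := by
      apply Subtype.ext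
      exact hfix
    rw [this, sub_self]
  set d := (G - 1).det with hd
  have h2 : d • v = 0 := by
    have := congrArg (fun w => (Matrix.adjugate (G - 1)).mulVec w) h1
    simp only [Matrix.mulVec_mulVec, Matrix.adjugate_mul, Matrix.mulVec_zero,
      Matrix.smul_mulVec, Matrix.one_mulVec] at this
    exact this
  -- lift to the point
  have h3 : levelEquiv E p hΔ k (d.val • x) = 0 := by
    rw [map_nsmul, ← hv, ← Nat.cast_smul_eq_nsmul (ZMod (p ^ k)), ZMod.natCast_zmod_val]
    exact h2
  have h4 : d.val • x = 0 := by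
    have := (levelEquiv E p hΔ k).injective (h3.trans (_root_.map_zero _).symm)
    exact this
  have h5 : d.val • P = 0 := by
    have := congrArg (fun y : tors (Pts E) p k => (y : Pts E)) h4
    simpa using this
  have h6 : p ^ k ∣ d.val := by
    have := addOrderOf_dvd_of_nsmul_eq_zero h5
    rwa [hord] at this
  rw [← ZMod.natCast_zmod_val d]
  exact (ZMod.natCast_eq_zero_iff _ _).mpr h6

/-- **fixed points of exact order `p^k` for all `k` give `tr = 1 + det`** (over `ℤ_[p]`). -/
theorem tateMatZp_trace_eq_one_add_det_of_fixed (σ : GQ)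
    (hfix : ∀ k : ℕ, ∃ P : Pts E, addOrderOf P = p ^ k ∧ σ • P = P) :
    (tateMatZp E p hΔ σ).trace = 1 + (tateMatZp E p hΔ σ).det := by
  set M := tateMatZp E p hΔ σ with hM
  have h0 : (M - 1).det = 0 := by
    apply PadicInt.ext_of_toZModPow.mp
    intro k
    obtain ⟨P, hord, hP⟩ := hfix k
    have h1 := det_levelMat_sub_one E p hΔ k σ P hord hP
    rw [← tateMatZp_map_toZModPow] at h1
    rw [_root_.map_zero, ← h1, RingHom.map_det]
    congr 1
    ext i j
    simp [hM, Matrix.one_apply, apply_ite (PadicInt.toZModPow k)]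
  rw [Matrix.det_fin_two] at h0
  rw [Matrix.trace_fin_two, Matrix.det_fin_two]
  simp only [Matrix.sub_apply, Matrix.one_apply_eq, Matrix.one_apply_ne, ne_eq, zero_ne_one,
    not_false_eq_true, one_ne_zero, sub_zero] at h0
  linear_combination -h0

/-! ### general coefficients -/

section general

variable {O : Type} [CommRing O] (J : Ideal O) [IsAdicComplete J O] (hpJ : (p : O) ∈ J)

/-- trace and determinant from the quadratic relation, over `O`. -/
theorem tateMat_trace_det_of_relation (σ : GQ) (a l : ℤ)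
    (hrel : ∀ k, ∀ P : Pts E, P ∈ tors (Pts E) p k → σ • σ • P - a • σ • P + l • P = 0)
    (hbound : ∀ (k : ℕ) (c : ℤ), (∀ P : Pts E, P ∈ tors (Pts E) p k → σ • P = c • P) →
      ((p ^ k : ℕ) : ℤ) ^ 2 ≤ 2 * |c ^ 2 - a * c + l| + 1) :
    (tateMat E p J hpJ hΔ σ).trace = (a : O) ∧ (tateMat E p J hpJ hΔ σ).det = (l : O) := by
  obtain ⟨ht, hd⟩ := trace_det_of_relation E p hΔ σ a l hrel hbound
  rw [tateMat_trace, tateMat_det, ht, hd, map_intCast, map_intCast]
  exact ⟨rfl, rfl⟩

/-- `tr = 1 + det` from fixed points, over `O`. -/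
theorem tateMat_trace_eq_one_add_det_of_fixed (σ : GQ)
    (hfix : ∀ k : ℕ, ∃ P : Pts E, addOrderOf P = p ^ k ∧ σ • P = P) :
    (tateMat E p J hpJ hΔ σ).trace = 1 + (tateMat E p J hpJ hΔ σ).det := by
  rw [tateMat_trace, tateMat_det, tateMatZp_trace_eq_one_add_det_of_fixed E p hΔ σ hfix, map_add,
    map_one]

end general

/-! ### the packaged statements for `tateRep` -/

section rep

variable {O : Type} [CommRing O] [IsLocalRing O]
  [IsAdicComplete (IsLocalRing.maximalIdeal O) O] (hpO : (p : O) ∈ IsLocalRing.maximalIdeal O)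

/-- the determinant of `ρ(σ)` is the determinant of the matrix. -/
theorem tateRep_det (σ : GQ) :
    LinearMap.det ((tateRep E p hpO hΔ).ρ σ) =
      (tateMat E p (IsLocalRing.maximalIdeal O) hpO hΔ σ).det := by
  show LinearMap.det (Matrix.toLin' (tateMat E p (IsLocalRing.maximalIdeal O) hpO hΔ σ) :
    (Fin 2 → O) →ₗ[O] (Fin 2 → O)) = _
  exact LinearMap.det_toLin' _

/-- the trace of `ρ(σ)` is the trace of the matrix. -/
theorem tateRep_trace (σ : GQ) :
    (tateRep E p hpO hΔ).trace σ =
      (tateMat E p (IsLocalRing.maximalIdeal O) hpO hΔ σ).trace := by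
  show LinearMap.trace O (Fin 2 → O)
    (Matrix.toLin' (tateMat E p (IsLocalRing.maximalIdeal O) hpO hΔ σ)) = _
  exact Matrix.trace_toLin'_eq _

/-- **Frobenius-type elements**: if `σ² - aσ + ℓ = 0` on all `E[p^k]` and `σ` never acts on
`E[p^k]` as a small scalar, then `charpoly ρ(σ) = X² - aX + ℓ`. -/
theorem tateRep_charpoly_of_relation (σ : GQ) (a l : ℤ)
    (hrel : ∀ k, ∀ P : Pts E, P ∈ tors (Pts E) p k → σ • σ • P - a • σ • P + l • P = 0)
    (hbound : ∀ (k : ℕ) (c : ℤ), (∀ P : Pts E, P ∈ tors (Pts E) p k → σ • P = c • P) →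
      ((p ^ k : ℕ) : ℤ) ^ 2 ≤ 2 * |c ^ 2 - a * c + l| + 1) :
    LinearMap.charpoly ((tateRep E p hpO hΔ).ρ σ) = X ^ 2 - C (a : O) * X + C (l : O) := by
  obtain ⟨ht, hd⟩ := tateMat_trace_det_of_relation E p hΔ (IsLocalRing.maximalIdeal O) hpO σ a l
    hrel hbound
  rw [tateRep_charpoly, Matrix.charpoly_fin_two, ht, hd]

/-- **inertia at a multiplicative prime**: fixed points of exact order `p^k` for all `k` and
`det = 1` give `charpoly ρ(σ) = (X - 1)²`. -/
theorem tateRep_charpoly_of_fixed (σ : GQ)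
    (hfix : ∀ k : ℕ, ∃ P : Pts E, addOrderOf P = p ^ k ∧ σ • P = P)
    (hdet : LinearMap.det ((tateRep E p hpO hΔ).ρ σ) = 1) :
    LinearMap.charpoly ((tateRep E p hpO hΔ).ρ σ) = (X - 1) ^ 2 := by
  have hd : (tateMat E p (IsLocalRing.maximalIdeal O) hpO hΔ σ).det = 1 := by
    rw [tateRep_det] at hdet
    exact hdet
  have ht := tateMat_trace_eq_one_add_det_of_fixed E p hΔ (IsLocalRing.maximalIdeal O) hpO σ hfix
  rw [tateRep_charpoly, Matrix.charpoly_fin_two, ht, hd]
  simp only [map_add, map_one]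
  ring

/-- **inertia at a good prime**: if `σ` fixes all `p`-power torsion then `ρ(σ) = 1`. -/
theorem tateRep_eq_one_of_fix (σ : GQ)
    (h : ∀ k, ∀ P : Pts E, P ∈ tors (Pts E) p k → σ • P = P) :
    (tateRep E p hpO hΔ).ρ σ = 1 := by
  rw [tateRep_ρ, tateMat_eq_one_of_fix E p (IsLocalRing.maximalIdeal O) hpO hΔ σ h,
    Matrix.toLin'_one]
  rfl

end rep

end Fermat.Agent.S58lib.Tate
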