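/-
S58 library, block Tate (helper6), brick T4: **the residual representation of the Tate module**.

If `E[p]` is an irreducible Galois module (Prelude: `GaloisRepIsIrreducible`) then the residual
representation `(tateRep E p).residual` (over the residue field of `ℤ_[p]`) is irreducible.

Route: `E[p] ≃ (ℤ/p^1)² → k₀²` (`k₀ = ResidueField ℤ_[p]`, coordinatewise the surjection
`ℤ/p^1 → k₀`) is additive, surjective and intertwines `σ` with the reduced matrix of `tateMatZp σ`;
`k₀ ⊗ ℤ_p² ≃ k₀²` (`TensorProduct.piScalarRight`) intertwines the residual action with the same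
matrix.  A stable subspace pulls back to a Galois stable `ZMod p`-submodule of `E[p]`.
-/
import Mathlib
import Fermat.Agent.S58lib.Tate.Charpoly

set_option autoImplicit false
set_option linter.unusedSectionVars false
set_option linter.style.haveILetI false

noncomputable section

namespace Fermat.Agent.S58lib.Tate

open WeierstrassCurve WeierstrassCurve.Affine WeierstrassCurve.Affine.Point
open Fermat.Agent.S29lib.E Fermat.Agent.S29lib.S30 Matrix Polynomial
open scoped TensorProduct

/-! ### generalities -/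

section gen

variable (p : ℕ) [hp : Fact p.Prime]

/-- ring homomorphisms out of `ℤ_[p]` into a ring where `p = 0` are unique. -/
lemma padicInt_ringHom_ext {R : Type*} [CommRing R] (f g : ℤ_[p] →+* R) (h : (p : R) = 0) :
    f = g := by
  have key : ∀ (φ : ℤ_[p] →+* R) (x : ℤ_[p]), φ x = ((PadicInt.appr x 1 : ℕ) : R) := by
    intro φ x
    have h1 := PadicInt.appr_spec 1 x
    rw [Ideal.mem_span_singleton] at h1
    obtain ⟨y, hy⟩ := h1
    have h2 : x = (PadicInt.appr x 1 : ℤ_[p]) + (p : ℤ_[p]) ^ 1 * y := by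
      rw [← hy]
      ring
    conv_lhs => rw [h2]
    rw [map_add, map_mul, map_pow, map_natCast, map_natCast, h, pow_one, zero_mul, add_zero]
  ext x
  rw [key f x, key g x]

/-- the residue field of `ℤ_[p]` -/
abbrev k0 : Type := IsLocalRing.ResidueField ℤ_[p]

lemma natCast_k0_eq_zero : ((p ^ 1 : ℕ) : k0 p) = 0 := by
  have h1 : (p : ℤ_[p]) ∈ IsLocalRing.maximalIdeal ℤ_[p] := natCast_mem_maximalIdeal_padicInt p
  have h2 := (IsLocalRing.residue_eq_zero_iff (p : ℤ_[p])).mpr h1
  rw [map_natCast] at h2
  rw [pow_one]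
  exact h2

/-- the surjection `ℤ/p^1 → k₀` -/
def thetaHom : ZMod (p ^ 1) →+* k0 p := zmodHom (p ^ 1) (natCast_k0_eq_zero p)

lemma thetaHom_comp :
    (thetaHom p).comp (PadicInt.toZModPow 1) = IsLocalRing.residue ℤ_[p] := by
  apply padicInt_ringHom_ext
  have := natCast_k0_eq_zero p
  rwa [pow_one] at this

lemma thetaHom_toZModPow (x : ℤ_[p]) :
    thetaHom p (PadicInt.toZModPow 1 x) = IsLocalRing.residue ℤ_[p] x := by
  rw [← thetaHom_comp]
  rfl

lemma thetaHom_surjective : Function.Surjective (thetaHom p) := by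
  intro y
  obtain ⟨x, rfl⟩ := IsLocalRing.residue_surjective y
  exact ⟨PadicInt.toZModPow 1 x, thetaHom_toZModPow p x⟩

end gen

/-! ### the tensor product side -/

section tensor

variable {R : Type*} [CommRing R] {k : Type*} [Field k] [Algebra R k]

/-- `k ⊗ R² ≃ k²` intertwines the base change of a matrix with its image. -/
lemma piScalarRight_baseChange_toLin' (M : Matrix (Fin 2) (Fin 2) R) (z : k ⊗[R] (Fin 2 → R)) :
    TensorProduct.piScalarRight R k k (Fin 2) ((Matrix.toLin' M).baseChange k z) =
      (M.map (algebraMap R k)).mulVec (TensorProduct.piScalarRight R k k (Fin 2) z) := by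
  induction z using TensorProduct.induction_on with
  | zero => simp
  | add x y hx hy => rw [map_add, map_add, hx, hy, map_add, Matrix.mulVec_add]
  | tmul c v =>
    rw [LinearMap.baseChange_tmul, TensorProduct.piScalarRight_apply,
      TensorProduct.piScalarRightHom_tmul, TensorProduct.piScalarRight_apply,
      TensorProduct.piScalarRightHom_tmul]
    funext i
    simp only [Matrix.toLin'_apply, Matrix.mulVec, dotProduct, Matrix.map_apply, Algebra.smul_def,
      map_sum, map_mul, Finset.sum_mul, mul_assoc]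

end tensor

/-! ### the comparison map `E[p] → k₀²` -/

variable (E : WeierstrassCurve ℚ) (p : ℕ) [hp : Fact p.Prime] (hΔ : E.Δ ≠ 0)

/-- `E[p]` in the Prelude's shape -/
abbrev Ep : Type := Submodule.torsionBy ℤ (Pts E) ((p : ℕ) : ℤ)

/-- `E[p] → E[p^1]` (the same points) -/
def toLevelOne : Ep E p →+ tors (Pts E) p 1 where
  toFun x := ⟨(x : Pts E), by
    have := x.2
    rw [Submodule.mem_torsionBy_iff] at this
    rw [Submodule.mem_torsionBy_iff, pow_one]
    exact this⟩
  map_zero' := rfl
  map_add' _ _ := rfl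

lemma toLevelOne_coe (x : Ep E p) : ((toLevelOne E p x : tors (Pts E) p 1) : Pts E) = x := rfl

lemma toLevelOne_surjective : Function.Surjective (toLevelOne E p) := by
  intro y
  refine ⟨⟨(y : Pts E), ?_⟩, rfl⟩
  have := y.2
  rw [Submodule.mem_torsionBy_iff, pow_one] at this
  rw [Submodule.mem_torsionBy_iff]
  exact this

lemma toLevelOne_smul (σ : GQ) (x : Ep E p) :
    toLevelOne E p (σ • x) = actHom E p 1 σ (toLevelOne E p x) := rfl

/-- the comparison map `E[p] → k₀²` -/
def cmpMap : Ep E p →+ (Fin 2 → k0 p) :=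
  ((AddMonoidHom.compLeft (thetaHom p).toAddMonoidHom (Fin 2)).comp
    (levelEquiv E p hΔ 1).toAddMonoidHom).comp (toLevelOne E p)

lemma cmpMap_apply (x : Ep E p) (i : Fin 2) :
    cmpMap E p hΔ x i = thetaHom p (levelEquiv E p hΔ 1 (toLevelOne E p x) i) := rfl

lemma cmpMap_surjective : Function.Surjective (cmpMap E p hΔ) := by
  intro v
  choose w hw using fun i => thetaHom_surjective p (v i)
  obtain ⟨y, hy⟩ := (levelEquiv E p hΔ 1).surjective w
  obtain ⟨x, hx⟩ := toLevelOne_surjective E p y
  refine ⟨x, ?_⟩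
  funext i
  rw [cmpMap_apply, hx, hy, hw]

/-- the reduced matrix of `σ` -/
def resMat (σ : GQ) : Matrix (Fin 2) (Fin 2) (k0 p) :=
  (tateMatZp E p hΔ σ).map (IsLocalRing.residue ℤ_[p])

lemma resMat_eq (σ : GQ) : resMat E p hΔ σ = (levelMat E p hΔ 1 σ).map (thetaHom p) := by
  rw [← tateMatZp_map_toZModPow, resMat]
  ext i j
  simp only [Matrix.map_apply]
  exact (thetaHom_toZModPow p _).symm

/-- **equivariance of the comparison map** -/
theorem cmpMap_smul (σ : GQ) (x : Ep E p) :
    cmpMap E p hΔ (σ • x) = (resMat E p hΔ σ).mulVec (cmpMap E p hΔ x) := by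
  funext i
  rw [cmpMap_apply, toLevelOne_smul, ← levelMat_mulVec, resMat_eq]
  have := RingHom.map_mulVec (thetaHom p) (levelMat E p hΔ 1 σ)
    (levelEquiv E p hΔ 1 (toLevelOne E p x)) i
  rw [this]
  rfl

/-! ### irreducibility -/

/-- **T4.** If `E[p]` is irreducible then the residual representation of the Tate module is. -/
theorem tateRep_residual_isIrreducible
    (hirr : Affine.Point.GaloisRepIsIrreducible (K := Qb) ℚ E p) :
    ((tateRep E p (natCast_mem_maximalIdeal_padicInt p) hΔ :
      GaloisRepAdic ℤ_[p]).residual).IsIrreducible := by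
  intro Wsub hstab
  set Ψ := TensorProduct.piScalarRight ℤ_[p] (k0 p) (k0 p) (Fin 2) with hΨ
  set W' : Submodule (k0 p) (Fin 2 → k0 p) := Wsub.map Ψ.toLinearMap with hW'
  have hW'mem : ∀ w : k0 p ⊗[ℤ_[p]] (Fin 2 → ℤ_[p]), Ψ w ∈ W' ↔ w ∈ Wsub := by
    intro w
    constructor
    · rintro ⟨w', hw', hww'⟩
      have : w' = w := Ψ.injective hww'
      rw [← this]
      exact hw'
    · intro hw
      exact ⟨w, hw, rfl⟩
  -- the pulled back submodule of `E[p]`
  let N : Submodule (ZMod p) (Ep E p) :=
    { carrier := {x | cmpMap E p hΔ x ∈ W'}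
      add_mem' := by
        intro x y hx hy
        show cmpMap E p hΔ (x + y) ∈ W'
        rw [map_add]
        exact Submodule.add_mem _ hx hy
      zero_mem' := by
        show cmpMap E p hΔ 0 ∈ W'
        rw [_root_.map_zero]
        exact Submodule.zero_mem _
      smul_mem' := by
        intro c x hx
        show cmpMap E p hΔ (c • x) ∈ W'
        have hc : c • x = c.val • x := by
          conv_lhs => rw [← ZMod.natCast_zmod_val c]
          exact Nat.cast_smul_eq_nsmul (ZMod p) c.val x
        rw [hc, map_nsmul]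
        exact Submodule.smul_of_tower_mem _ c.val hx }
  have hNmem : ∀ x : Ep E p, x ∈ N ↔ cmpMap E p hΔ x ∈ W' := fun x => Iff.rfl
  -- stability
  have hNstab : Affine.Point.IsGaloisStable ℚ N := by
    intro σ x hx
    rw [hNmem] at hx ⊢
    rw [cmpMap_smul]
    obtain ⟨w, hw, hwx⟩ := hx
    rw [← hwx]
    have h1 := piScalarRight_baseChange_toLin' (k := k0 p) (tateMatZp E p hΔ σ) w
    have h2 : (resMat E p hΔ σ).mulVec (Ψ w) =
        Ψ ((Matrix.toLin' (tateMatZp E p hΔ σ)).baseChange (k0 p) w) := h1.symm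
    show (resMat E p hΔ σ).mulVec (Ψ w) ∈ W'
    rw [h2, hW'mem]
    exact hstab σ w hw
  rcases hirr.2 N hNstab with hN | hN
  · left
    rw [Submodule.eq_bot_iff]
    intro w hw
    obtain ⟨x, hx⟩ := cmpMap_surjective E p hΔ (Ψ w)
    have hxN : x ∈ N := by
      rw [hNmem, hx, hW'mem]
      exact hw
    rw [hN, Submodule.mem_bot] at hxN
    rw [hxN, _root_.map_zero] at hx
    have h0 : Ψ w = Ψ 0 := by rw [← hx, _root_.map_zero]
    exact Ψ.injective h0
  · right
    rw [Submodule.eq_top_iff']
    intro w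
    obtain ⟨x, hx⟩ := cmpMap_surjective E p hΔ (Ψ w)
    have hxN : x ∈ N := by
      rw [hN]
      exact Submodule.mem_top
    rw [hNmem, hx, hW'mem] at hxN
    exact hxN

end Fermat.Agent.S58lib.Tate
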