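/-
S58 library, block Tate (helper6): **the family of Tate modules of an integral Weierstrass model**,
in the shape of the architect's `S58lib.Interface` (`TateFam`, `TateRes`), without importing it.
-/
import Mathlib
import Fermat.Prelude.Def_FLTPrelim_ModularRep
import Fermat.Agent.S58lib.Tate.Fixed
import Fermat.Agent.S58lib.Tate.Residual

set_option autoImplicit false
set_option linter.unusedSectionVars false

noncomputable section

namespace Fermat.Agent.S58lib.Tate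

open WeierstrassCurve WeierstrassCurve.Affine WeierstrassCurve.Affine.Point Polynomial

/-- the curve over `ℚ` -/
abbrev WQ' (W : WeierstrassCurve ℤ) : WeierstrassCurve ℚ := W.map (Int.castRingHom ℚ)

lemma WQ'_Δ_ne_zero {W : WeierstrassCurve ℤ} (hΔ : W.Δ ≠ 0) : (WQ' W).Δ ≠ 0 := by
  rw [WeierstrassCurve.map_Δ]
  simpa using hΔ

/-- **the `lam`-adic Tate modules of `W`** (`= TateFam` of the interface). -/
def tateFam (W : WeierstrassCurve ℤ) (hΔ : W.Δ ≠ 0) :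
    ∀ (lam : ℕ) [Fact lam.Prime], GaloisRepAdic ℤ_[lam] :=
  fun lam _ => tateRep (WQ' W) lam (natCast_mem_maximalIdeal_padicInt lam) (WQ'_Δ_ne_zero hΔ)

lemma tateFam_apply (W : WeierstrassCurve ℤ) (hΔ : W.Δ ≠ 0) (lam : ℕ) [Fact lam.Prime] :
    tateFam W hΔ lam =
      tateRep (WQ' W) lam (natCast_mem_maximalIdeal_padicInt lam) (WQ'_Δ_ne_zero hΔ) := rfl

/-- **`TateRes`**: if `W[p]` is irreducible then so is the residual representation of `T_p`. -/
theorem tateFam_residual_isIrreducible (W : WeierstrassCurve ℤ) (hΔ : W.Δ ≠ 0) (p : ℕ)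
    [Fact p.Prime] (hirr : W.ModRepIsIrreducible p) :
    (tateFam W hΔ p).residual.IsIrreducible :=
  tateRep_residual_isIrreducible (WQ' W) p (WQ'_Δ_ne_zero hΔ) hirr

/-- Frobenius-type elements on the family (the shape of `TateFrob`). -/
theorem tateFam_charpoly_of_relation (W : WeierstrassCurve ℤ) (hΔ : W.Δ ≠ 0) (lam : ℕ)
    [Fact lam.Prime] (σ : GQ) (a l : ℤ)
    (hrel : ∀ k, ∀ P : Pts (WQ' W), P ∈ tors (Pts (WQ' W)) lam k →
      σ • σ • P - a • σ • P + l • P = 0)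
    (hbound : ∀ (k : ℕ) (c : ℤ), (∀ P : Pts (WQ' W), P ∈ tors (Pts (WQ' W)) lam k →
      σ • P = c • P) → ((lam ^ k : ℕ) : ℤ) ^ 2 ≤ 2 * |c ^ 2 - a * c + l| + 1) :
    LinearMap.charpoly ((tateFam W hΔ lam).ρ σ) = X ^ 2 - C (a : ℤ_[lam]) * X + C (l : ℤ_[lam]) :=
  tateRep_charpoly_of_relation (WQ' W) lam (WQ'_Δ_ne_zero hΔ) _ σ a l hrel hbound

/-- inertia at a multiplicative prime on the family. -/
theorem tateFam_charpoly_of_fixed (W : WeierstrassCurve ℤ) (hΔ : W.Δ ≠ 0) (lam : ℕ)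
    [Fact lam.Prime] (σ : GQ)
    (hfix : ∀ k : ℕ, ∃ P : Pts (WQ' W), addOrderOf P = lam ^ k ∧ σ • P = P)
    (hdet : LinearMap.det ((tateFam W hΔ lam).ρ σ) = 1) :
    LinearMap.charpoly ((tateFam W hΔ lam).ρ σ) = (X - 1) ^ 2 :=
  tateRep_charpoly_of_fixed (WQ' W) lam (WQ'_Δ_ne_zero hΔ) _ σ hfix hdet

/-- inertia at a good prime on the family. -/
theorem tateFam_eq_one_of_fix (W : WeierstrassCurve ℤ) (hΔ : W.Δ ≠ 0) (lam : ℕ)
    [Fact lam.Prime] (σ : GQ)
    (h : ∀ k, ∀ P : Pts (WQ' W), P ∈ tors (Pts (WQ' W)) lam k → σ • P = P) :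
    (tateFam W hΔ lam).ρ σ = 1 :=
  tateRep_eq_one_of_fix (WQ' W) lam (WQ'_Δ_ne_zero hΔ) _ σ h

end Fermat.Agent.S58lib.Tate
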