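/-
S58 library, block Tate (helper6): **transport of the Frobenius core to the Tate modules**:
`FrobCore → TateFrob W (tateFam W hΔ)`.

For a good prime `ℓ ≠ lam`, a place `A ∣ ℓ` of `ℚ̄` with residue field `k` and a Frobenius element
`σ` at `A`, helper9's injective reduction homomorphism `redHom : W[lam^j](ℚ̄) →+ W̃(k)` intertwines
`σ` with the Frobenius `φ` of `W̃(k)`.  So the relation (R) `φ² - aφ + ℓ = 0` and the kernel bound
(K) of `FrobCore` give the hypotheses `hrel`, `hbound` of `tateFam_charpoly_of_relation`.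
-/
import Mathlib
import Fermat.Agent.S18lib.Gink.Residue
import Fermat.Agent.S58lib.Interface
import Fermat.Agent.S58lib.Red.Hom
import Fermat.Agent.S58lib.Tate.Family

set_option autoImplicit false
set_option linter.unusedSectionVars false
set_option linter.style.haveILetI false

noncomputable section

namespace Fermat.Agent.S58lib.Tate

open WeierstrassCurve WeierstrassCurve.Affine WeierstrassCurve.Affine.Point Polynomial
open Fermat.Agent.S58lib.Red

/-- the reduction of a good model has nonzero discriminant. -/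
lemma reductionMod_Δ_ne_zero (W : WeierstrassCurve ℤ) {ℓ : ℕ} (hgood : ¬ (ℓ : ℤ) ∣ W.Δ) :
    (W.reductionMod ℓ).Δ ≠ 0 := by
  rw [WeierstrassCurve.reductionMod, WeierstrassCurve.map_Δ]
  intro h
  apply hgood
  have h1 : ((W.Δ : ℤ) : ZMod ℓ) = 0 := by simpa using h
  exact (ZMod.intCast_zmod_eq_zero_iff_dvd _ _).mp h1

/-- **`TateFrob` from `FrobCore`.** -/
theorem tateFrob_of_frobCore (hFC : Fermat.Agent.S58lib.FrobCore) (W : WeierstrassCurve ℤ)
    (hΔ : W.Δ ≠ 0) : Fermat.Agent.S58lib.TateFrob W (tateFam W hΔ) := by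
  intro lam _ ℓ hℓ hℓlam hgood A hA σ hσ
  haveI hℓf : Fact ℓ.Prime := ⟨hℓ⟩
  have hlam : lam.Prime := Fact.out
  haveI hchar : CharP (IsLocalRing.ResidueField A) ℓ := charP_residueField hℓ hA
  letI : Algebra (ZMod ℓ) (IsLocalRing.ResidueField A) := ZMod.algebra _ ℓ
  haveI : IsAlgClosed (IsLocalRing.ResidueField A) :=
    Fermat.Agent.S18lib.Gink.isAlgClosed_residueField A
  letI : DecidableEq (IsLocalRing.ResidueField A) := Classical.decEq _
  obtain ⟨hR, hK⟩ := hFC ℓ (W.reductionMod ℓ) (reductionMod_Δ_ne_zero W hgood)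
    (IsLocalRing.ResidueField A)
  have hn : ∀ j : ℕ, ¬ ℓ ∣ lam ^ j := by
    intro j h
    exact hℓlam ((Nat.prime_dvd_prime_iff_eq hℓ hlam).mp (hℓ.dvd_of_dvd_pow h))
  -- the key identity: `redHom (σ • x) = φ (redHom x)`
  have hfrob : ∀ (j : ℕ) (x : tors (Pts (WQ' W)) lam j),
      redHom W hℓ hgood hA (hn j) (σ • x) =
        Fermat.Agent.S58lib.frobPt ℓ (W.reductionMod ℓ) (IsLocalRing.ResidueField A)
          (redHom W hℓ hgood hA (hn j) x) := by
    intro j x
    exact redHom_frob hℓ hgood hA (hn j) hσ x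
  have h := tateFam_charpoly_of_relation W hΔ lam σ (W.apOfModel ℓ) (ℓ : ℤ) ?_ ?_
  · rw [h, Int.cast_natCast]
  · -- the relation
    intro j P hP
    set x : tors (Pts (WQ' W)) lam j := ⟨P, hP⟩ with hx
    have h0 : redHom W hℓ hgood hA (hn j)
        (σ • σ • x - (W.apOfModel ℓ) • σ • x + (ℓ : ℤ) • x) = 0 := by
      rw [map_add, map_sub, map_zsmul, map_zsmul, hfrob, hfrob]
      exact hR _
    have h1 := redHom_injective hℓ hgood hA (hn j) (h0.trans (_root_.map_zero _).symm)
    have h2 := congrArg (fun y : tors (Pts (WQ' W)) lam j => (y : Pts (WQ' W))) h1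
    exact h2
  · -- the bound
    intro j c hc
    have hfin : Finite (tors (Pts (WQ' W)) lam j) :=
      (hasTwoDimTorsion (WQ' W) (WQ'_Δ_ne_zero hΔ) lam).finite j
    set r := redHom W hℓ hgood hA (hn j) with hr
    have hXfin : Finite r.range := by
      have : Finite (Set.range r) := Set.finite_range r
      exact this
    have hXc : ∀ Q ∈ r.range,
        Fermat.Agent.S58lib.frobPt ℓ (W.reductionMod ℓ) (IsLocalRing.ResidueField A) Q = c • Q := by
      rintro Q ⟨x, rfl⟩
      rw [← hfrob, ← map_zsmul]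
      congr 1
      apply Subtype.ext
      exact hc _ x.2
    have hcard : Nat.card r.range = (lam ^ j) ^ 2 := by
      have h1 : Nat.card r.range = Nat.card (tors (Pts (WQ' W)) lam j) :=
        (Nat.card_congr (Equiv.ofInjective r (redHom_injective hℓ hgood hA (hn j)))).symm
      rw [h1, hasTwoDimTorsion (WQ' W) (WQ'_Δ_ne_zero hΔ) lam j, ← pow_mul, mul_comm]
    have h3 := hK c r.range hXfin hXc
    rw [hcard] at h3
    have h4 : c ^ 2 - (W.reductionMod ℓ).traceOfFrobenius * c + (ℓ : ℤ) ≤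
        |c ^ 2 - W.apOfModel ℓ * c + (ℓ : ℤ)| := le_abs_self _
    have h5 : 0 ≤ |c ^ 2 - W.apOfModel ℓ * c + (ℓ : ℤ)| := abs_nonneg _
    push_cast at h3 ⊢
    linarith

end Fermat.Agent.S58lib.Tate
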